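/-
S55 / [PROFIN]-GLOBAL (helper22), file 1: inflation along a SURJECTIVE group homomorphism
`p : Γ →* Q`, at the level of inhomogeneous cochains (Mathlib `cocycles₁/cocycles₂/d₁₂`).

Setting: `A : Rep k Γ`, `B : Rep k Q`, `e : B ≃ₗ[k] A` with `A.ρ g (e b) = e (B.ρ (p g) b)`
(`IsDescent A p B e`: "`B` is `A` regarded as a representation of the quotient `Q`").

* `pull₁ p e x = e ∘ x ∘ p`, `pull₂ p e c = e ∘ c ∘ Prod.map p p` (linear maps on cochains),
  injective when `p` is surjective;
* `pull₂_mem_cocycles₂_iff`, `pull₁_mem_cocycles₁_iff`, `d₁₂_pull₁`, `d₀₁_pull`;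
* `exists_eq_pull₁_of_const`, `exists_eq_pull₂_of_const` : a cochain on `Γ` which is constant
  modulo `ker p` (on the right) factors through `p`;
* `descRep A p hp hker` + `descRep_isDescent` : existence of a descent when `ker p` acts trivially.
Pure Mathlib.
-/
import Mathlib

set_option autoImplicit false

open CategoryTheory groupCohomology

noncomputable section

namespace Fermat.Agent.S55.ProfinGlobal22

universe u

variable {k Γ Q : Type u} [CommRing k] [Group Γ] [Group Q]

/-- `B` is `A` regarded as a representation of `Q` through `p` (via the linear equivalence `e`). -/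
def IsDescent (A : Rep k Γ) (p : Γ →* Q) (B : Rep k Q) (e : B ≃ₗ[k] A) : Prop :=
  ∀ (g : Γ) (b : B), A.ρ g (e b) = e (B.ρ (p g) b)

section Pull

variable {X Y : Type*} [AddCommGroup X] [Module k X] [AddCommGroup Y] [Module k Y]
  (p : Γ →* Q) (e : Y ≃ₗ[k] X)

/-- pull back a `1`-cochain along `p` (and transport the values along `e`) -/
def pull₁ : (Q → Y) →ₗ[k] (Γ → X) where
  toFun x := fun g => e (x (p g))
  map_add' _ _ := by funext g; simp
  map_smul' _ _ := by funext g; simp

/-- pull back a `2`-cochain along `p` (and transport the values along `e`) -/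
def pull₂ : (Q × Q → Y) →ₗ[k] (Γ × Γ → X) where
  toFun c := fun g => e (c (p g.1, p g.2))
  map_add' _ _ := by funext g; simp
  map_smul' _ _ := by funext g; simp

@[simp] theorem pull₁_apply (x : Q → Y) (g : Γ) : pull₁ p e x g = e (x (p g)) := rfl

@[simp] theorem pull₂_apply (c : Q × Q → Y) (g : Γ × Γ) :
    pull₂ p e c g = e (c (p g.1, p g.2)) := rfl

theorem pull₁_injective (hp : Function.Surjective p) :
    Function.Injective (pull₁ p e) := by
  intro x y h
  funext q
  obtain ⟨g, rfl⟩ := hp q
  exact e.injective (congrFun h g)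

theorem pull₂_injective (hp : Function.Surjective p) :
    Function.Injective (pull₂ p e) := by
  intro x y h
  funext ⟨q, q'⟩
  obtain ⟨g, rfl⟩ := hp q
  obtain ⟨g', rfl⟩ := hp q'
  exact e.injective (congrFun h (g, g'))

/-- a function on `Γ` which is right-constant modulo `ker p` factors through `p` -/
theorem exists_eq_pull₁_of_const (hp : Function.Surjective p) (f : Γ → X)
    (hf : ∀ g s : Γ, p s = 1 → f (g * s) = f g) : ∃ x : Q → Y, f = pull₁ p e x := by
  refine ⟨fun q => e.symm (f (Function.surjInv hp q)), ?_⟩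
  funext g
  rw [pull₁_apply, LinearEquiv.apply_symm_apply]
  have h1 : p ((Function.surjInv hp (p g))⁻¹ * g) = 1 := by
    rw [map_mul, map_inv, Function.surjInv_eq hp, inv_mul_cancel]
  have h2 := hf (Function.surjInv hp (p g)) _ h1
  rw [← h2]
  congr 1
  group

/-- a function on `Γ × Γ` which is right-constant modulo `ker p` in both variables factors
through `p × p` -/
theorem exists_eq_pull₂_of_const (hp : Function.Surjective p) (f : Γ × Γ → X)
    (hf : ∀ g g' s s' : Γ, p s = 1 → p s' = 1 → f (g * s, g' * s') = f (g, g')) :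
    ∃ c : Q × Q → Y, f = pull₂ p e c := by
  refine ⟨fun q => e.symm (f (Function.surjInv hp q.1, Function.surjInv hp q.2)), ?_⟩
  funext ⟨g, g'⟩
  rw [pull₂_apply, LinearEquiv.apply_symm_apply]
  have h1 : p ((Function.surjInv hp (p g))⁻¹ * g) = 1 := by
    rw [map_mul, map_inv, Function.surjInv_eq hp, inv_mul_cancel]
  have h1' : p ((Function.surjInv hp (p g'))⁻¹ * g') = 1 := by
    rw [map_mul, map_inv, Function.surjInv_eq hp, inv_mul_cancel]
  have h2 := hf (Function.surjInv hp (p g)) (Function.surjInv hp (p g')) _ _ h1 h1'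
  rw [← h2]
  congr 2 <;> group

/-- pulled-back cochains are constant modulo `ker p` -/
theorem pull₁_const (x : Q → Y) (g s : Γ) (hs : p s = 1) :
    pull₁ p e x (g * s) = pull₁ p e x g := by
  simp only [pull₁_apply, map_mul, hs, mul_one]

theorem pull₂_const (c : Q × Q → Y) (g g' s s' : Γ) (hs : p s = 1) (hs' : p s' = 1) :
    pull₂ p e c (g * s, g' * s') = pull₂ p e c (g, g') := by
  simp only [pull₂_apply, map_mul, hs, hs', mul_one]

end Pull

section Cocycles

variable {A : Rep k Γ} {p : Γ →* Q} {B : Rep k Q} {e : B ≃ₗ[k] A}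

/-- `2`-cocycles of `B` = `2`-cochains whose pull-back is a cocycle of `A` -/
theorem pull₂_mem_cocycles₂_iff (h : IsDescent A p B e) (hp : Function.Surjective p)
    (c : Q × Q → B) : pull₂ p e c ∈ cocycles₂ A ↔ c ∈ cocycles₂ B := by
  rw [mem_cocycles₂_iff, mem_cocycles₂_iff]
  constructor
  · intro hc q q' q''
    obtain ⟨g, rfl⟩ := hp q
    obtain ⟨g', rfl⟩ := hp q'
    obtain ⟨g'', rfl⟩ := hp q''
    have := hc g g' g''
    simp only [pull₂_apply, map_mul, h g, ← map_add] at this
    exact e.injective this
  · intro hc g g' g''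
    have := hc (p g) (p g') (p g'')
    simp only [pull₂_apply, map_mul, h g, ← map_add]
    rw [this]

/-- `1`-cocycles of `B` = `1`-cochains whose pull-back is a cocycle of `A` -/
theorem pull₁_mem_cocycles₁_iff (h : IsDescent A p B e) (hp : Function.Surjective p)
    (x : Q → B) : pull₁ p e x ∈ cocycles₁ A ↔ x ∈ cocycles₁ B := by
  rw [mem_cocycles₁_iff, mem_cocycles₁_iff]
  constructor
  · intro hc q q'
    obtain ⟨g, rfl⟩ := hp q
    obtain ⟨g', rfl⟩ := hp q'
    have := hc g g'
    simp only [pull₁_apply, map_mul, h g, ← map_add] at this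
    exact e.injective this
  · intro hc g g'
    have := hc (p g) (p g')
    simp only [pull₁_apply, map_mul, h g, ← map_add]
    rw [this]

/-- the differential `d¹²` commutes with pull-back -/
theorem d₁₂_pull₁ (h : IsDescent A p B e) (x : Q → B) :
    (d₁₂ A).hom (pull₁ p e x) = pull₂ p e ((d₁₂ B).hom x) := by
  funext ⟨g, g'⟩
  rw [d₁₂_hom_apply, pull₂_apply, d₁₂_hom_apply]
  simp only [pull₁_apply, map_mul, h g, map_add, map_sub]

/-- the differential `d⁰¹` commutes with pull-back -/
theorem d₀₁_pull (h : IsDescent A p B e) (b : B) :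
    (d₀₁ A).hom (e b) = pull₁ p e ((d₀₁ B).hom b) := by
  funext g
  rw [d₀₁_hom_apply, pull₁_apply, d₀₁_hom_apply, h g, map_sub]

end Cocycles

section Desc

variable (A : Rep k Γ) (p : Γ →* Q) (hp : Function.Surjective p)
  (hker : ∀ s : Γ, p s = 1 → A.ρ s = 1)

include hker in
theorem ρ_eq_of_map_eq {g g' : Γ} (h : p g = p g') : A.ρ g = A.ρ g' := by
  have h1 : p (g'⁻¹ * g) = 1 := by rw [map_mul, map_inv, h, inv_mul_cancel]
  have h2 := hker _ h1
  have h3 : g = g' * (g'⁻¹ * g) := by group
  rw [h3, map_mul, h2, mul_one]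

/-- the descended representation of `Q` on the carrier of `A` -/
def descRepresentation : Representation k Q A where
  toFun q := A.ρ (Function.surjInv hp q)
  map_one' := hker _ (Function.surjInv_eq hp 1)
  map_mul' q q' := by
    rw [← map_mul]
    apply ρ_eq_of_map_eq A p hker
    rw [map_mul, Function.surjInv_eq hp, Function.surjInv_eq hp, Function.surjInv_eq hp]

/-- the descended representation, as an object of `Rep k Q` -/
def descRep : Rep k Q := Rep.of (descRepresentation A p hp hker)

/-- the identification of the carriers -/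
def descEquiv : descRep A p hp hker ≃ₗ[k] A := LinearEquiv.refl k A

theorem descRep_isDescent : IsDescent A p (descRep A p hp hker) (descEquiv A p hp hker) := by
  intro g b
  show A.ρ g b = A.ρ (Function.surjInv hp (p g)) b
  rw [ρ_eq_of_map_eq A p hker (Function.surjInv_eq hp (p g))]

end Desc

end Fermat.Agent.S55.ProfinGlobal22

end
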