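/-
S55 / [PROFIN]-GLOBAL (helper22), file 1b: linear maps OUT OF Mathlib's `H1 B`, `H2 B`, and the
abstract inflation maps attached to a descent datum (`Core.lean`).

* `H2desc B f hf : H2 B →ₗ[k] Y` for `f : cocycles₂ B →ₗ[k] Y` killing `coboundaries₂ B`, with
  `H2desc_H2π : H2desc B f hf (H2π B c) = f c`; same for `H1desc`.
* for `h : IsDescent A p B e`, `hp : Surjective p`:
  `inflCocycles₂ h hp : cocycles₂ B →ₗ[k] cocycles₂ A`, `inflH2 h hp : H2 B →ₗ[k] H2 A`,
  `inflCocycles₁`, `inflH1`, `inflH1_injective`.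
Pure Mathlib.
-/
import Mathlib
import Fermat.Agent.S55.ProfinGlobal22.Core

set_option autoImplicit false

open CategoryTheory groupCohomology

noncomputable section

namespace Fermat.Agent.S55.ProfinGlobal22

universe u

variable {k Γ Q : Type u} [CommRing k] [Group Γ] [Group Q]

section Desc

variable (B : Rep k Q) {Y : Type*} [AddCommGroup Y] [Module k Y]

theorem H2π_surjective : Function.Surjective (H2π B).hom :=
  (ModuleCat.epi_iff_surjective (H2π B)).mp inferInstance

theorem H1π_surjective : Function.Surjective (H1π B).hom :=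
  (ModuleCat.epi_iff_surjective (H1π B)).mp inferInstance

/-- descend a linear map on `2`-cocycles killing coboundaries to `H²` -/
def H2desc (f : cocycles₂ B →ₗ[k] Y)
    (hf : ∀ c : cocycles₂ B, (c : Q × Q → B) ∈ coboundaries₂ B → f c = 0) : H2 B →ₗ[k] Y :=
  (Submodule.liftQ (LinearMap.ker (H2π B).hom) f (fun c hc => by
      rw [LinearMap.mem_ker] at hc ⊢
      exact hf c ((H2π_eq_zero_iff c).mp hc))) ∘ₗ
    ((LinearMap.quotKerEquivOfSurjective (H2π B).hom (H2π_surjective B)).symm :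
      H2 B →ₗ[k] _)

theorem H2desc_H2π (f : cocycles₂ B →ₗ[k] Y)
    (hf : ∀ c : cocycles₂ B, (c : Q × Q → B) ∈ coboundaries₂ B → f c = 0) (c : cocycles₂ B) :
    H2desc B f hf ((H2π B).hom c) = f c := by
  have h1 : (LinearMap.quotKerEquivOfSurjective (H2π B).hom (H2π_surjective B)).symm
      ((H2π B).hom c) = Submodule.Quotient.mk c := by
    rw [LinearEquiv.symm_apply_eq]
    rfl
  unfold H2desc
  rw [LinearMap.comp_apply, LinearEquiv.coe_coe, h1, Submodule.liftQ_apply]

/-- descend a linear map on `1`-cocycles killing coboundaries to `H¹` -/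
def H1desc (f : cocycles₁ B →ₗ[k] Y)
    (hf : ∀ c : cocycles₁ B, (c : Q → B) ∈ coboundaries₁ B → f c = 0) : H1 B →ₗ[k] Y :=
  (Submodule.liftQ (LinearMap.ker (H1π B).hom) f (fun c hc => by
      rw [LinearMap.mem_ker] at hc ⊢
      exact hf c ((H1π_eq_zero_iff c).mp hc))) ∘ₗ
    ((LinearMap.quotKerEquivOfSurjective (H1π B).hom (H1π_surjective B)).symm :
      H1 B →ₗ[k] _)

theorem H1desc_H1π (f : cocycles₁ B →ₗ[k] Y)
    (hf : ∀ c : cocycles₁ B, (c : Q → B) ∈ coboundaries₁ B → f c = 0) (c : cocycles₁ B) :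
    H1desc B f hf ((H1π B).hom c) = f c := by
  have h1 : (LinearMap.quotKerEquivOfSurjective (H1π B).hom (H1π_surjective B)).symm
      ((H1π B).hom c) = Submodule.Quotient.mk c := by
    rw [LinearEquiv.symm_apply_eq]
    rfl
  unfold H1desc
  rw [LinearMap.comp_apply, LinearEquiv.coe_coe, h1, Submodule.liftQ_apply]

end Desc

section Infl

variable {A : Rep k Γ} {p : Γ →* Q} {B : Rep k Q} {e : B ≃ₗ[k] A}
  (h : IsDescent A p B e) (hp : Function.Surjective p)

/-- inflation of `2`-cocycles -/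
def inflCocycles₂ : cocycles₂ B →ₗ[k] cocycles₂ A :=
  LinearMap.codRestrict _ ((pull₂ p e).comp (cocycles₂ B).subtype)
    (fun c => (pull₂_mem_cocycles₂_iff h hp c).mpr c.2)

@[simp] theorem coe_inflCocycles₂ (c : cocycles₂ B) :
    (inflCocycles₂ h hp c : Γ × Γ → A) = pull₂ p e c := rfl

/-- inflation of `1`-cocycles -/
def inflCocycles₁ : cocycles₁ B →ₗ[k] cocycles₁ A :=
  LinearMap.codRestrict _ ((pull₁ p e).comp (cocycles₁ B).subtype)
    (fun c => (pull₁_mem_cocycles₁_iff h hp c).mpr c.2)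

@[simp] theorem coe_inflCocycles₁ (c : cocycles₁ B) :
    (inflCocycles₁ h hp c : Γ → A) = pull₁ p e c := rfl

include h in
theorem pull₂_mem_coboundaries₂ {c : Q × Q → B} (hc : c ∈ coboundaries₂ B) :
    pull₂ p e c ∈ coboundaries₂ A := by
  obtain ⟨x, rfl⟩ := hc
  exact ⟨pull₁ p e x, d₁₂_pull₁ h x⟩

include h in
theorem pull₁_mem_coboundaries₁ {c : Q → B} (hc : c ∈ coboundaries₁ B) :
    pull₁ p e c ∈ coboundaries₁ A := by
  obtain ⟨b, rfl⟩ := hc
  exact ⟨e b, d₀₁_pull h b⟩

include h hp in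
/-- a `1`-cochain of `B` whose pull-back is a coboundary is a coboundary -/
theorem mem_coboundaries₁_of_pull₁ {c : Q → B} (hc : pull₁ p e c ∈ coboundaries₁ A) :
    c ∈ coboundaries₁ B := by
  obtain ⟨a, ha⟩ := hc
  refine ⟨e.symm a, ?_⟩
  apply pull₁_injective p e hp
  rw [← d₀₁_pull h, LinearEquiv.apply_symm_apply]
  exact ha

/-- inflation on `H²` (abstract group cohomology) -/
def inflH2 : H2 B →ₗ[k] H2 A :=
  H2desc B ((H2π A).hom ∘ₗ inflCocycles₂ h hp) (fun c hc => by
    rw [LinearMap.comp_apply]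
    exact (H2π_eq_zero_iff _).mpr (pull₂_mem_coboundaries₂ h hc))

theorem inflH2_H2π (c : cocycles₂ B) :
    inflH2 h hp ((H2π B).hom c) = (H2π A).hom (inflCocycles₂ h hp c) :=
  H2desc_H2π B _ _ c

/-- inflation on `H¹` (abstract group cohomology) -/
def inflH1 : H1 B →ₗ[k] H1 A :=
  H1desc B ((H1π A).hom ∘ₗ inflCocycles₁ h hp) (fun c hc => by
    rw [LinearMap.comp_apply]
    exact (H1π_eq_zero_iff _).mpr (pull₁_mem_coboundaries₁ h hc))

theorem inflH1_H1π (c : cocycles₁ B) :
    inflH1 h hp ((H1π B).hom c) = (H1π A).hom (inflCocycles₁ h hp c) :=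
  H1desc_H1π B _ _ c

theorem inflH1_injective : Function.Injective (inflH1 h hp) := by
  rw [injective_iff_map_eq_zero]
  intro y hy
  obtain ⟨c, rfl⟩ := H1π_surjective B y
  rw [inflH1_H1π, H1π_eq_zero_iff] at hy
  exact (H1π_eq_zero_iff c).mpr (mem_coboundaries₁_of_pull₁ h hp hy)

end Infl

end Fermat.Agent.S55.ProfinGlobal22

end
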