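/-
S55 / [PROFIN]-GLOBAL (helper22), file 2: FINITE LEVELS of the Prelude cochain model.

`Level S M` : a finite Galois extension `F/ℚ` inside `ℚ̄`, unramified outside `S`, whose absolute
Galois group acts trivially on `M`.  For `L : Level S M`:
* `L.G = (L.F ≃ₐ[ℚ] L.F)` (a finite group), `L.π : G_ℚ →* L.G` (surjective, kernel
  `L.F.fixingSubgroup`), `L.rep : Rep k L.G`, `L.e : L.rep ≃ₗ[k] M`, `L.isDescent`;
* `L ≤ L'`, `resHom : L'.G →* L.G`;
* directedness `exists_ge`, via `isUnramifiedOutside_normalClosure`;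
* `exists_level` : levels exist under the hypotheses of S55.
-/
import Mathlib
import Fermat.Prelude.Def_GroupCohomology_ContinuousUnramified
import Fermat.Agent.Lib.InertiaGenerate
import Fermat.Agent.S55.ProfinGlobal22.Core

set_option autoImplicit false
set_option linter.style.haveILetI false
set_option linter.unusedSectionVars false

open CategoryTheory groupCohomology IntermediateField
open scoped Pointwise

noncomputable section

namespace Fermat.Agent.S55.ProfinGlobal22

open Fermat.Agent.Lib.FrobeniusExists (Qb GQ isAlgebraic_Qb isAlgClosure_Qb isGalois_Qb)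
open Fermat.Agent.Lib.InertiaGenerate (conj_mem_inertiaSubgroupIn liesOverPrime_smul)

attribute [local instance] isAlgebraic_Qb isAlgClosure_Qb isGalois_Qb

local instance normal_Qb : Normal ℚ Qb := IsGalois.to_normal

/-! ### conjugates and normal closures of fields unramified outside `S` -/

theorem mem_fixingSubgroup_map_iff (F : IntermediateField ℚ Qb) (τ σ : GQ) :
    σ ∈ (F.map (τ : Qb →ₐ[ℚ] Qb)).fixingSubgroup ↔ τ⁻¹ * σ * τ ∈ F.fixingSubgroup := by
  rw [IntermediateField.mem_fixingSubgroup_iff, IntermediateField.mem_fixingSubgroup_iff]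
  constructor
  · intro h x hx
    have h1 := h (τ x) (by rw [IntermediateField.mem_map]; exact ⟨x, hx, rfl⟩)
    show τ⁻¹ (σ (τ x)) = x
    rw [h1]
    exact τ.symm_apply_apply x
  · intro h y hy
    rw [IntermediateField.mem_map] at hy
    obtain ⟨x, hx, rfl⟩ := hy
    have h1 : τ⁻¹ (σ (τ x)) = x := h x hx
    have h2 := congrArg τ h1
    rwa [show τ (τ⁻¹ (σ (τ x))) = σ (τ x) from τ.apply_symm_apply _] at h2

theorem isUnramifiedOutside_map {S : Finset Nat.Primes} {F : IntermediateField ℚ Qb}
    (hF : F.IsUnramifiedOutside S) (τ : GQ) :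
    (F.map (τ : Qb →ₐ[ℚ] Qb)).IsUnramifiedOutside S := by
  haveI := hF.1
  refine ⟨?_, fun q hq A hA σ hσ => ?_⟩
  · exact (F.equivMap (τ : Qb →ₐ[ℚ] Qb)).toLinearEquiv.finiteDimensional
  · rw [mem_fixingSubgroup_map_iff]
    have h1 := conj_mem_inertiaSubgroupIn q.2 hA τ⁻¹ hσ
    rw [inv_inv] at h1
    exact hF.2 q hq (τ⁻¹ • A) (liesOverPrime_smul hA τ⁻¹) h1

theorem isUnramifiedOutside_normalClosure {S : Finset Nat.Primes} {F : IntermediateField ℚ Qb}
    (hF : F.IsUnramifiedOutside S) : (normalClosure ℚ F Qb).IsUnramifiedOutside S := by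
  haveI := hF.1
  refine ⟨inferInstance, fun q hq A hA σ hσ => ?_⟩
  have hdef : normalClosure ℚ F Qb = ⨆ f : GQ, F.map (f : Qb →ₐ[ℚ] Qb) :=
    IntermediateField.normalClosure_def'' F
  rw [hdef]
  have hz : Subgroup.zpowers σ ≤ (⨆ f : GQ, F.map (f : Qb →ₐ[ℚ] Qb)).fixingSubgroup := by
    rw [← IntermediateField.le_iff_le]
    refine iSup_le fun τ => ?_
    rw [IntermediateField.le_iff_le, Subgroup.zpowers_le]
    exact (isUnramifiedOutside_map hF τ).2 q hq A hA hσ
  exact hz (Subgroup.mem_zpowers σ)

/-! ### levels -/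

variable (S : Finset Nat.Primes) {k : Type} [CommRing k] (M : Rep k GQ)

/-- A finite level of the `S`-unramified cochain model of `M`. -/
structure Level where
  /-- the number field -/
  F : IntermediateField ℚ Qb
  normal : Normal ℚ F
  unr : F.IsUnramifiedOutside S
  triv : ∀ s ∈ F.fixingSubgroup, M.ρ s = 1

namespace Level

variable {S M} (L L' : Level S M)

instance : Normal ℚ L.F := L.normal

instance : FiniteDimensional ℚ L.F := L.unr.1

/-- the Galois group of the level -/
abbrev G : Type := L.F ≃ₐ[ℚ] L.F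

instance : Finite L.G := inferInstance

/-- restriction `G_ℚ → Gal(F/ℚ)` -/
def π : GQ →* L.G := AlgEquiv.restrictNormalHom L.F

theorem π_surjective : Function.Surjective L.π :=
  AlgEquiv.restrictNormalHom_surjective Qb

theorem π_ker : L.π.ker = L.F.fixingSubgroup := by
  haveI : @Normal ℚ L.F _ _ L.F.algebra' := L.normal
  exact IntermediateField.restrictNormalHom_ker L.F

theorem π_eq_one_iff (s : GQ) : L.π s = 1 ↔ s ∈ L.F.fixingSubgroup := by
  rw [← π_ker, MonoidHom.mem_ker]

theorem π_apply (g : GQ) (x : L.F) : ((L.π g x : L.F) : Qb) = g x :=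
  AlgEquiv.restrictNormal_commutes g L.F x

theorem hker (s : GQ) (hs : L.π s = 1) : M.ρ s = 1 :=
  L.triv s ((L.π_eq_one_iff s).mp hs)

/-- `M` as a representation of the finite group `Gal(F/ℚ)` -/
def rep : Rep k L.G := descRep M L.π L.π_surjective L.hker

/-- the identification of the carriers -/
def e : L.rep ≃ₗ[k] M := descEquiv M L.π L.π_surjective L.hker

theorem isDescent : IsDescent M L.π L.rep L.e := descRep_isDescent M L.π L.π_surjective L.hker

/-- the order on levels -/
instance : LE (Level S M) := ⟨fun L L' => L.F ≤ L'.F⟩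

theorem le_def {L L' : Level S M} : L ≤ L' ↔ L.F ≤ L'.F := Iff.rfl

theorem le_refl' : L ≤ L := le_refl L.F

theorem le_trans' {L L' L'' : Level S M} (h : L ≤ L') (h' : L' ≤ L'') : L ≤ L'' :=
  le_trans (α := IntermediateField ℚ Qb) h h'

theorem ker_le_of_le {L L' : Level S M} (h : L ≤ L') : L'.π.ker ≤ L.π.ker := by
  rw [π_ker, π_ker]
  exact IntermediateField.fixingSubgroup_antitone h

/-- the restriction homomorphism `Gal(F'/ℚ) → Gal(F/ℚ)` for `F ≤ F'` -/
def resHom {L L' : Level S M} (h : L ≤ L') : L'.G →* L.G :=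
  L'.π.liftOfRightInverse (Function.surjInv L'.π_surjective)
    (Function.rightInverse_surjInv L'.π_surjective) ⟨L.π, ker_le_of_le h⟩

theorem resHom_π {L L' : Level S M} (h : L ≤ L') (g : GQ) : resHom h (L'.π g) = L.π g :=
  MonoidHom.liftOfRightInverse_comp_apply _ _ _ _ g

theorem resHom_surjective {L L' : Level S M} (h : L ≤ L') : Function.Surjective (resHom h) := by
  intro q
  obtain ⟨g, rfl⟩ := L.π_surjective q
  exact ⟨L'.π g, resHom_π h g⟩

/-- `resHom` is the honest restriction of automorphisms -/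
theorem resHom_apply {L L' : Level S M} (h : L ≤ L') (σ : L'.G) (x : L.F) :
    ((resHom h σ x : L.F) : Qb) = ((σ ⟨x, h x.2⟩ : L'.F) : Qb) := by
  obtain ⟨g, rfl⟩ := L'.π_surjective σ
  rw [resHom_π, π_apply, π_apply]

/-- `L.rep` descends to `L'.rep` along `resHom` -/
theorem isDescent_resHom {L L' : Level S M} (h : L ≤ L') :
    IsDescent L'.rep (resHom h) L.rep (L.e.trans L'.e.symm) := by
  intro σ b
  obtain ⟨g, rfl⟩ := L'.π_surjective σ
  rw [resHom_π]
  apply L'.e.injective
  rw [← L'.isDescent g, LinearEquiv.trans_apply, LinearEquiv.trans_apply,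
    LinearEquiv.apply_symm_apply, LinearEquiv.apply_symm_apply]
  exact L.isDescent g b

/-- **Directedness**: any level and any finite extension unramified outside `S` are dominated by a
level. -/
theorem exists_ge (L₀ : Level S M) (F' : IntermediateField ℚ Qb)
    (hF' : F'.IsUnramifiedOutside S) : ∃ L : Level S M, L₀ ≤ L ∧ F' ≤ L.F := by
  have hsup : (L₀.F ⊔ F').IsUnramifiedOutside S := L₀.unr.sup hF'
  have hle : L₀.F ⊔ F' ≤ normalClosure ℚ ↥(L₀.F ⊔ F') Qb := IntermediateField.le_normalClosure _
  refine ⟨⟨normalClosure ℚ ↥(L₀.F ⊔ F') Qb, normalClosure.normal ℚ _ Qb,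
    isUnramifiedOutside_normalClosure hsup, fun s hs => ?_⟩, ?_, ?_⟩
  · exact L₀.triv s (IntermediateField.fixingSubgroup_antitone (le_sup_left.trans hle) hs)
  · exact le_sup_left.trans hle
  · exact le_sup_right.trans hle

theorem exists_ge₂ (L₀ L₁ : Level S M) : ∃ L : Level S M, L₀ ≤ L ∧ L₁ ≤ L :=
  exists_ge L₀ L₁.F L₁.unr

end Level

/-! ### existence of levels under the hypotheses of S55 -/

section Exists

variable {S M}

/-- Levels exist as soon as `M` is finitely generated, smooth and unramified outside `S`. -/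
theorem exists_level [Module.Finite k M]
    (hsm : ∀ m : M, ∃ F : IntermediateField ℚ Qb, FiniteDimensional ℚ F ∧
      ∀ s ∈ F.fixingSubgroup, M.ρ s m = m)
    (hMur : ∀ q : Nat.Primes, q ∉ S → ∀ A : ValuationSubring Qb,
      A.LiesOverPrime (q : ℕ) → ∀ g ∈ A.inertiaSubgroupIn ℚ, M.ρ g = 1) :
    Nonempty (Level S M) := by
  classical
  -- a finite extension trivialising `M`
  obtain ⟨t, ht⟩ := (Module.finite_def.mp (inferInstance : Module.Finite k M))
  choose Fm hFm1 hFm2 using hsm
  let F₁ : IntermediateField ℚ Qb := ⨆ m ∈ t, Fm m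
  haveI : ∀ m, FiniteDimensional ℚ (Fm m) := hFm1
  haveI hF₁fin : FiniteDimensional ℚ F₁ := IntermediateField.finiteDimensional_iSup_of_finset
  have hF₁triv : ∀ s ∈ F₁.fixingSubgroup, M.ρ s = 1 := by
    intro s hs
    have hfix : ∀ m ∈ t, M.ρ s m = m := fun m hm =>
      hFm2 m s (IntermediateField.fixingSubgroup_antitone (le_biSup Fm hm) hs)
    apply LinearMap.ext_on_range (v := fun m : (t : Set M) => (m : M))
    · rw [Subtype.range_coe]; exact ht
    · rintro ⟨m, hm⟩
      exact hfix m hm
  -- the kernel of `ρ` is an open normal subgroup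
  let H : Subgroup GQ := M.ρ.ker
  have hH : F₁.fixingSubgroup ≤ H := fun s hs => MonoidHom.mem_ker.mpr (hF₁triv s hs)
  have hHopen : IsOpen (H : Set GQ) :=
    Subgroup.isOpen_mono hH (IntermediateField.fixingSubgroup_isOpen F₁)
  have hHclosed : IsClosed (H : Set GQ) := Subgroup.isClosed_of_isOpen H hHopen
  let Hc : ClosedSubgroup GQ := ⟨H, hHclosed⟩
  let F : IntermediateField ℚ Qb := IntermediateField.fixedField H
  have hFfix : F.fixingSubgroup = H := InfiniteGalois.fixingSubgroup_fixedField Hc
  have hFle : F ≤ F₁ := by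
    have h1 : IntermediateField.fixedField H ≤ IntermediateField.fixedField F₁.fixingSubgroup :=
      IntermediateField.fixedField_antitone hH
    rwa [InfiniteGalois.fixedField_fixingSubgroup] at h1
  haveI hFfin : FiniteDimensional ℚ F :=
    FiniteDimensional.of_injective (IntermediateField.inclusion hFle).toLinearMap
      (IntermediateField.inclusion_injective hFle)
  have hFnormal : Normal ℚ F := by
    have hn : F.fixingSubgroup.Normal := by rw [hFfix]; exact MonoidHom.normal_ker _
    exact ((InfiniteGalois.normal_iff_isGalois F).mp hn).to_normal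
  refine ⟨⟨F, hFnormal, ⟨hFfin, fun q hq A hA σ hσ => ?_⟩, fun s hs => ?_⟩⟩
  · rw [hFfix]
    exact MonoidHom.mem_ker.mpr (hMur q hq A hA σ hσ)
  · rw [hFfix] at hs
    exact MonoidHom.mem_ker.mp hs

end Exists

end Fermat.Agent.S55.ProfinGlobal22

end
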