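/-
S55 / [PROFIN]-GLOBAL (helper22), file 5: bridges between `ProfinGlobal22.Level`, helper15's
`Profin15.globalLevels` and helper34's contract (`Contract34.IsSRep`, `Contract34.SRepStatement`).

* `Level.fixingSubgroup_mem_globalLevels` : the open subgroup of an `S`-level is a global level;
* `Level.isSRep`, `exists_level_of_isSRep` : `Contract34.IsSRep p S M ↔ Nonempty (Level S M)`;
* `sRepStatement : Contract34.SRepStatement` (the hypotheses of the frozen statement make `M` an
  `S`-representation): this closes one of the three inputs of `Contract34.dimStatement_of_contract`.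
-/
import Mathlib
import Fermat.Agent.S55.Contract34
import Fermat.Agent.S55.ProfinGlobal22.Level

set_option autoImplicit false
set_option linter.style.haveILetI false

open CategoryTheory groupCohomology IntermediateField

noncomputable section

namespace Fermat.Agent.S55.ProfinGlobal22

open Fermat.Agent.Lib.FrobeniusExists (Qb GQ isAlgebraic_Qb isAlgClosure_Qb isGalois_Qb)
open Fermat.Agent.S55.Profin15 (globalLevels mem_globalLevels_iff)

attribute [local instance] isAlgebraic_Qb isAlgClosure_Qb isGalois_Qb

variable {S : Finset Nat.Primes} {k : Type} [CommRing k] {M : Rep k GQ}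

/-- the open subgroup `Gal(ℚ̄/L.F)` of an `S`-level is a level of `Profin15.globalLevels S` -/
theorem Level.fixingSubgroup_mem_globalLevels (L : Level S M) :
    L.F.fixingSubgroup ∈ (globalLevels S).levels := by
  rw [mem_globalLevels_iff]
  refine ⟨?_, L.F, L.unr, rfl⟩
  rw [← L.π_ker]
  exact MonoidHom.normal_ker _

/-- conversely every global level trivialising `M` comes from an `S`-level -/
theorem exists_level_of_mem_globalLevels {U : Subgroup GQ} (hU : U ∈ (globalLevels S).levels)
    (htriv : ∀ s ∈ U, M.ρ s = 1) : ∃ L : Level S M, L.F.fixingSubgroup = U := by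
  obtain ⟨hn, F, hF, rfl⟩ := mem_globalLevels_iff.mp hU
  haveI := hF.1
  have hnormal : Normal ℚ F :=
    ((InfiniteGalois.normal_iff_isGalois F).mp hn).to_normal
  exact ⟨⟨F, hnormal, hF, htriv⟩, rfl⟩

variable (p : ℕ) [Fact p.Prime]

theorem Level.isSRep {M : Rep.{0} (ZMod p) GQ} (L : Level S M) : Contract34.IsSRep p S M :=
  ⟨L.F.fixingSubgroup, L.fixingSubgroup_mem_globalLevels, L.triv⟩

theorem exists_level_of_isSRep {M : Rep.{0} (ZMod p) GQ} (h : Contract34.IsSRep p S M) :
    Nonempty (Level S M) := by
  obtain ⟨U, hU, htriv⟩ := h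
  obtain ⟨L, -⟩ := exists_level_of_mem_globalLevels hU htriv
  exact ⟨L⟩

theorem isSRep_iff {M : Rep.{0} (ZMod p) GQ} : Contract34.IsSRep p S M ↔ Nonempty (Level S M) :=
  ⟨exists_level_of_isSRep p, fun ⟨L⟩ => L.isSRep p⟩

/-- **`Contract34.SRepStatement`**: the hypotheses `hsm`, `hMur` of the frozen S55 statement make
`M` an `S`-representation. -/
theorem sRepStatement : Contract34.SRepStatement := by
  intro p _ S M _ hsm hMur
  obtain ⟨L⟩ := exists_level (S := S) (M := M) hsm hMur
  exact L.isSRep p

end Fermat.Agent.S55.ProfinGlobal22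

end
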