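/-
S55 / [PROFIN]-GLOBAL (helper22), file 3: the Prelude `S`-level cochain model of `G_ℚ` as the
colimit over the finite levels `L : Level S M` of Mathlib's finite group cohomology
`H^i(Gal(L.F/ℚ), M)`, in ELEMENT form.

* `L.infl₂ : H2 L.rep →ₗ[k] continuousH2S S M`, `infl₂_H2π`;
* `L.trans₂ h : H2 L.rep →ₗ[k] H2 L'.rep` (`h : L ≤ L'`), `infl₂_trans₂`;
* (A1) `exists_infl₂_eq`, (A2) `infl₂_eq_zero_iff`;
* `L.infl₁ : H1 L.rep →ₗ[k] H1 M` (injective), `L.trans₁ h`, `infl₁_trans₁`,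
  (A1') `mem_continuousH1S_iff`;
* localisation formulas `locRes₂S_infl₂`, `locRes₂S_infl₂_eq_zero_iff`, `locRes_infl₁_eq_zero_iff`.
-/
import Mathlib
import Fermat.Agent.S55.ProfinGlobal22.Level
import Fermat.Agent.S55.ProfinGlobal22.Desc

set_option autoImplicit false
set_option linter.style.haveILetI false
set_option linter.unusedSectionVars false

open CategoryTheory groupCohomology IntermediateField

noncomputable section

namespace Fermat.Agent.S55.ProfinGlobal22

open Fermat.Agent.Lib.FrobeniusExists (Qb GQ)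

variable {S : Finset Nat.Primes} {k : Type} [CommRing k] {M : Rep k GQ}

namespace Level

variable (L : Level S M)

/-! ### level-constant cochains = cochains pulled back from a level -/

theorem isLevelConstantS₁_pull₁ (x : L.G → L.rep) : IsLevelConstantS₁ S (pull₁ L.π L.e x) :=
  ⟨L.F, L.unr, fun g s hs => pull₁_const L.π L.e x g s ((L.π_eq_one_iff s).mpr hs)⟩

theorem isLevelConstantS₂_pull₂ (c : L.G × L.G → L.rep) :
    IsLevelConstantS₂ S (pull₂ L.π L.e c) :=
  ⟨L.F, L.unr, fun g g' s s' hs hs' =>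
    pull₂_const L.π L.e c g g' s s' ((L.π_eq_one_iff s).mpr hs) ((L.π_eq_one_iff s').mpr hs')⟩

theorem exists_eq_pull₁ (L₀ : Level S M) {f : GQ → M} (hf : IsLevelConstantS₁ S f) :
    ∃ L : Level S M, L₀ ≤ L ∧ ∃ x : L.G → L.rep, f = pull₁ L.π L.e x := by
  obtain ⟨F', hF', hc⟩ := hf
  obtain ⟨L, hL₀, hF'L⟩ := exists_ge L₀ F' hF'
  exact ⟨L, hL₀, exists_eq_pull₁_of_const L.π L.e L.π_surjective f fun g s hs =>
    hc g s (IntermediateField.fixingSubgroup_antitone hF'L ((L.π_eq_one_iff s).mp hs))⟩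

theorem exists_eq_pull₂ (L₀ : Level S M) {f : GQ × GQ → M} (hf : IsLevelConstantS₂ S f) :
    ∃ L : Level S M, L₀ ≤ L ∧ ∃ c : L.G × L.G → L.rep, f = pull₂ L.π L.e c := by
  obtain ⟨F', hF', hc⟩ := hf
  obtain ⟨L, hL₀, hF'L⟩ := exists_ge L₀ F' hF'
  exact ⟨L, hL₀, exists_eq_pull₂_of_const L.π L.e L.π_surjective f fun g g' s s' hs hs' =>
    hc g g' s s' (IntermediateField.fixingSubgroup_antitone hF'L ((L.π_eq_one_iff s).mp hs))
      (IntermediateField.fixingSubgroup_antitone hF'L ((L.π_eq_one_iff s').mp hs'))⟩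

/-- compatibility of the pull-backs along `resHom` -/
theorem pull₂_resHom {L L' : Level S M} (h : L ≤ L') (c : L.G × L.G → L.rep) :
    pull₂ L'.π L'.e (pull₂ (resHom h) (L.e.trans L'.e.symm) c) = pull₂ L.π L.e c := by
  funext ⟨g, g'⟩
  simp only [pull₂_apply, resHom_π, LinearEquiv.trans_apply, LinearEquiv.apply_symm_apply]

theorem pull₁_resHom {L L' : Level S M} (h : L ≤ L') (x : L.G → L.rep) :
    pull₁ L'.π L'.e (pull₁ (resHom h) (L.e.trans L'.e.symm) x) = pull₁ L.π L.e x := by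
  funext g
  simp only [pull₁_apply, resHom_π, LinearEquiv.trans_apply, LinearEquiv.apply_symm_apply]

/-! ### `H²` -/

/-- inflation of `2`-cocycles of level `L` to `S`-level cocycles of `G_ℚ` -/
def inflCocyclesS₂ : cocycles₂ L.rep →ₗ[k] levelCocyclesS₂ S M :=
  LinearMap.codRestrict _ ((pull₂ L.π L.e).comp (cocycles₂ L.rep).subtype)
    (fun c => ⟨(pull₂_mem_cocycles₂_iff L.isDescent L.π_surjective c).mpr c.2,
      L.isLevelConstantS₂_pull₂ c⟩)

@[simp] theorem coe_inflCocyclesS₂ (c : cocycles₂ L.rep) :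
    (L.inflCocyclesS₂ c : GQ × GQ → M) = pull₂ L.π L.e c := rfl

/-- the inflation map `H²(Gal(F/ℚ), M) → H²_S(G_ℚ, M)` (Prelude model) -/
def infl₂ : H2 L.rep →ₗ[k] continuousH2S S M :=
  H2desc L.rep (continuousH2Sπ S M ∘ₗ L.inflCocyclesS₂) (fun c hc => by
    rw [LinearMap.comp_apply, continuousH2Sπ_eq_zero_iff, mem_levelCoboundariesS₂_iff]
    obtain ⟨x, hx⟩ := hc
    refine ⟨pull₁ L.π L.e x, L.isLevelConstantS₁_pull₁ x, ?_⟩
    rw [d₁₂_pull₁ L.isDescent, coe_inflCocyclesS₂]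
    congr 1)

theorem infl₂_H2π (c : cocycles₂ L.rep) :
    L.infl₂ ((H2π L.rep).hom c) = continuousH2Sπ S M (L.inflCocyclesS₂ c) :=
  H2desc_H2π L.rep _ _ c

/-- the transition map `H²(Gal(F/ℚ), M) → H²(Gal(F'/ℚ), M)` for `F ≤ F'` -/
def trans₂ {L L' : Level S M} (h : L ≤ L') : H2 L.rep →ₗ[k] H2 L'.rep :=
  inflH2 (isDescent_resHom h) (resHom_surjective h)

theorem trans₂_H2π {L L' : Level S M} (h : L ≤ L') (c : cocycles₂ L.rep) :
    trans₂ h ((H2π L.rep).hom c) =
      (H2π L'.rep).hom (inflCocycles₂ (isDescent_resHom h) (resHom_surjective h) c) :=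
  inflH2_H2π _ _ c

/-- **(A3)** inflation is compatible with the transition maps -/
theorem infl₂_trans₂ {L L' : Level S M} (h : L ≤ L') (y : H2 L.rep) :
    L'.infl₂ (trans₂ h y) = L.infl₂ y := by
  obtain ⟨c, rfl⟩ := H2π_surjective L.rep y
  rw [trans₂_H2π, infl₂_H2π, infl₂_H2π]
  congr 1
  apply Subtype.ext
  rw [coe_inflCocyclesS₂, coe_inflCocyclesS₂, coe_inflCocycles₂, pull₂_resHom]

/-- **(A1)** every class of the Prelude model comes from a finite level (above any given one) -/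
theorem exists_infl₂_eq (L₀ : Level S M) (x : continuousH2S S M) :
    ∃ L : Level S M, L₀ ≤ L ∧ ∃ y : H2 L.rep, L.infl₂ y = x := by
  obtain ⟨f, rfl⟩ := Submodule.mkQ_surjective _ x
  obtain ⟨L, hL₀, c, hc⟩ := exists_eq_pull₂ L₀ f.2.2
  have hcoc : c ∈ cocycles₂ L.rep := by
    rw [← pull₂_mem_cocycles₂_iff L.isDescent L.π_surjective, ← hc]
    exact f.2.1
  refine ⟨L, hL₀, (H2π L.rep).hom ⟨c, hcoc⟩, ?_⟩
  rw [infl₂_H2π]
  congr 1
  apply Subtype.ext
  rw [coe_inflCocyclesS₂]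
  exact hc.symm

/-- **(A2)** a class of level `L` dies in the Prelude model iff it dies at a higher level -/
theorem infl₂_eq_zero_iff (y : H2 L.rep) :
    L.infl₂ y = 0 ↔ ∃ (L' : Level S M) (h : L ≤ L'), trans₂ h y = 0 := by
  constructor
  · intro hy
    obtain ⟨c, rfl⟩ := H2π_surjective L.rep y
    rw [infl₂_H2π, continuousH2Sπ_eq_zero_iff, mem_levelCoboundariesS₂_iff] at hy
    obtain ⟨x, hx, hxc⟩ := hy
    obtain ⟨L', hLL', x', rfl⟩ := exists_eq_pull₁ L hx
    refine ⟨L', hLL', ?_⟩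
    rw [trans₂_H2π, H2π_eq_zero_iff, coe_inflCocycles₂]
    refine ⟨x', ?_⟩
    apply pull₂_injective L'.π L'.e L'.π_surjective
    rw [pull₂_resHom, ← d₁₂_pull₁ L'.isDescent, hxc, coe_inflCocyclesS₂]
  · rintro ⟨L', h, hy⟩
    rw [← infl₂_trans₂ h, hy, map_zero]

/-! ### `H¹` -/

/-- the inflation map `H¹(Gal(F/ℚ), M) → H¹(G_ℚ, M)` -/
def infl₁ : H1 L.rep →ₗ[k] H1 M := inflH1 L.isDescent L.π_surjective

theorem infl₁_H1π (c : cocycles₁ L.rep) :
    L.infl₁ ((H1π L.rep).hom c) =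
      (H1π M).hom (inflCocycles₁ L.isDescent L.π_surjective c) :=
  inflH1_H1π _ _ c

theorem infl₁_injective : Function.Injective L.infl₁ := inflH1_injective _ _

/-- the transition map on `H¹` -/
def trans₁ {L L' : Level S M} (h : L ≤ L') : H1 L.rep →ₗ[k] H1 L'.rep :=
  inflH1 (isDescent_resHom h) (resHom_surjective h)

theorem trans₁_injective {L L' : Level S M} (h : L ≤ L') : Function.Injective (trans₁ h) :=
  inflH1_injective _ _

theorem infl₁_trans₁ {L L' : Level S M} (h : L ≤ L') (y : H1 L.rep) :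
    L'.infl₁ (trans₁ h y) = L.infl₁ y := by
  obtain ⟨c, rfl⟩ := H1π_surjective L.rep y
  rw [trans₁, inflH1_H1π, infl₁_H1π, infl₁_H1π]
  congr 1
  apply Subtype.ext
  exact pull₁_resHom h (c : L.G → L.rep)

theorem infl₁_mem_continuousH1S (y : H1 L.rep) : L.infl₁ y ∈ continuousH1S S M := by
  obtain ⟨c, rfl⟩ := H1π_surjective L.rep y
  rw [infl₁_H1π, mem_continuousH1S_iff]
  exact ⟨_, L.isLevelConstantS₁_pull₁ c, rfl⟩

/-- **(A1')** the Prelude `H¹_S(G_ℚ, M)` is the union of the images of the finite levels -/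
theorem mem_continuousH1S_iff' (L₀ : Level S M) (x : H1 M) :
    x ∈ continuousH1S S M ↔ ∃ L : Level S M, L₀ ≤ L ∧ ∃ y : H1 L.rep, L.infl₁ y = x := by
  constructor
  · intro hx
    rw [mem_continuousH1S_iff] at hx
    obtain ⟨c, hc, rfl⟩ := hx
    obtain ⟨L, hL₀, c', hc'⟩ := exists_eq_pull₁ L₀ hc
    have hcoc : c' ∈ cocycles₁ L.rep := by
      rw [← pull₁_mem_cocycles₁_iff L.isDescent L.π_surjective, ← hc']
      exact c.2
    refine ⟨L, hL₀, (H1π L.rep).hom ⟨c', hcoc⟩, ?_⟩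
    rw [infl₁_H1π]
    congr 1
    apply Subtype.ext
    exact hc'.symm
  · rintro ⟨L, -, y, rfl⟩
    exact L.infl₁_mem_continuousH1S y

/-! ### localisation at a "local group" `f : H →* G_ℚ` -/

section Loc

variable {H : Type} [Group H] (f : H →* GQ)

/-- the `2`-cocycle of the local group `H` obtained from a `2`-cocycle of level `L` -/
def locCocycles₂ : cocycles₂ L.rep →ₗ[k] levelCocycles₂ f (Rep.res f M) :=
  (levelCocycles₂Map (rH := MonoidHom.id _) (rG := f) f (fun _ => rfl)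
      (LinearMap.id : M →ₗ[k] Rep.res f M) (fun _ _ => rfl)
    ∘ₗ levelCocyclesS₂ToLevelCocycles₂ S M) ∘ₗ L.inflCocyclesS₂

@[simp] theorem locCocycles₂_apply (c : cocycles₂ L.rep) (h : H × H) :
    (L.locCocycles₂ f c : H × H → Rep.res f M) h = L.e (c (L.π (f h.1), L.π (f h.2))) := rfl

/-- **(A4)** the localisation map of the Prelude on a class of finite level -/
theorem locRes₂S_infl₂ (c : cocycles₂ L.rep) :
    locRes₂S S M f (L.infl₂ ((H2π L.rep).hom c)) =
      continuousH2π f (Rep.res f M) (L.locCocycles₂ f c) := by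
  rw [infl₂_H2π]
  rfl

/-- **(A4')** a class of finite level dies at the local group `H` iff its pull-back to `H` is the
coboundary of a level-constant `1`-cochain of `H` -/
theorem locRes₂S_infl₂_eq_zero_iff (c : cocycles₂ L.rep) :
    locRes₂S S M f (L.infl₂ ((H2π L.rep).hom c)) = 0 ↔
      ∃ b : H → M, IsLevelConstant₁ f b ∧ ∀ h h' : H,
        L.e (c (L.π (f h), L.π (f h'))) = M.ρ (f h) (b h') - b (h * h') + b h := by
  rw [locRes₂S_infl₂, continuousH2π_eq_zero_iff, mem_levelCoboundaries₂_iff]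
  constructor
  · rintro ⟨b, hb, hbc⟩
    refine ⟨b, hb, fun h h' => ?_⟩
    have := congrFun hbc (h, h')
    rw [locCocycles₂_apply] at this
    rw [← this]
    rfl
  · rintro ⟨b, hb, hbc⟩
    refine ⟨b, hb, ?_⟩
    funext ⟨h, h'⟩
    rw [locCocycles₂_apply]
    exact (hbc h h').symm

/-- **(A5)** the `H¹`-localisation (Mathlib `groupCohomology.map`, i.e. the Prelude `locRes`) of a
class of finite level -/
theorem map_infl₁_eq_zero_iff (c : cocycles₁ L.rep) :
    (groupCohomology.map f (𝟙 (Rep.res f M)) 1).hom (L.infl₁ ((H1π L.rep).hom c)) = 0 ↔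
      ∃ m : M, ∀ h : H, L.e (c (L.π (f h))) = M.ρ (f h) m - m := by
  rw [infl₁_H1π]
  have h1 : (groupCohomology.map f (𝟙 (Rep.res f M)) 1).hom
        ((H1π M).hom (inflCocycles₁ L.isDescent L.π_surjective c)) =
      (H1π (Rep.res f M)).hom ((mapCocycles₁ f (𝟙 (Rep.res f M))).hom
        (inflCocycles₁ L.isDescent L.π_surjective c)) :=
    H1π_comp_map_apply f (𝟙 (Rep.res f M)) _
  rw [h1]
  erw [H1π_eq_zero_iff]
  constructor
  · rintro ⟨m, hm⟩
    refine ⟨m, fun h => ?_⟩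
    have := congrFun hm h
    exact this.symm
  · rintro ⟨m, hm⟩
    exact ⟨m, funext fun h => (hm h).symm⟩

end Loc

end Level

end Fermat.Agent.S55.ProfinGlobal22

end
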