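/-
S55 / [PROFIN]-GLOBAL (helper22), file 4: finite levels of ARBITRARY ramification and the local
conditions of `sha₂` / `sha₁` at FINITE level.

`ALevel M` : a finite Galois extension `F/ℚ` inside `ℚ̄` whose absolute Galois group acts trivially
on `M` (no ramification condition).  For `A : ALevel M` and a "local group" `f : H →* G_ℚ`:
* `A.img f : Subgroup A.G` the image of `H` in `Gal(A.F/ℚ)` (a decomposition group when `f` is the
  local Galois group), `A.resImg₂ f`, `A.resImg₁ f` : Mathlib restriction `H^i(A.G, M) → H^i(A.img f, M)`;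
* (A6) `Level.locRes₂S_infl₂_eq_zero_iff'` : a class of `S`-level `L` dies in the Prelude local
  `H²` at `f` iff its inflation to some `A ≥ L` dies on `A.img f`;
* (A7) `Level.map_infl₁_eq_zero_iff'` : a class of `S`-level `L` dies in the local `H¹` at `f` iff it
  dies on `L.img f`.
-/
import Mathlib
import Fermat.Agent.S55.ProfinGlobal22.Global

set_option autoImplicit false
set_option linter.style.haveILetI false
set_option linter.unusedSectionVars false

open CategoryTheory groupCohomology IntermediateField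

noncomputable section

namespace Fermat.Agent.S55.ProfinGlobal22

open Fermat.Agent.Lib.FrobeniusExists (Qb GQ isAlgebraic_Qb isAlgClosure_Qb isGalois_Qb)

attribute [local instance] isAlgebraic_Qb isAlgClosure_Qb isGalois_Qb

local instance normal_Qb' : Normal ℚ Qb := IsGalois.to_normal

variable {k : Type} [CommRing k] (M : Rep k GQ)

/-- A finite level of `M`, of arbitrary ramification. -/
structure ALevel where
  /-- the number field -/
  F : IntermediateField ℚ Qb
  normal : Normal ℚ F
  fin : FiniteDimensional ℚ F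
  triv : ∀ s ∈ F.fixingSubgroup, M.ρ s = 1

namespace ALevel

variable {M} (A A' : ALevel M)

instance : Normal ℚ A.F := A.normal

instance : FiniteDimensional ℚ A.F := A.fin

/-- the Galois group of the level -/
abbrev G : Type := A.F ≃ₐ[ℚ] A.F

instance : Finite A.G := inferInstance

/-- restriction `G_ℚ → Gal(F/ℚ)` -/
def π : GQ →* A.G := AlgEquiv.restrictNormalHom A.F

theorem π_surjective : Function.Surjective A.π :=
  AlgEquiv.restrictNormalHom_surjective Qb

theorem π_ker : A.π.ker = A.F.fixingSubgroup := by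
  haveI : @Normal ℚ A.F _ _ A.F.algebra' := A.normal
  exact IntermediateField.restrictNormalHom_ker A.F

theorem π_eq_one_iff (s : GQ) : A.π s = 1 ↔ s ∈ A.F.fixingSubgroup := by
  rw [← π_ker, MonoidHom.mem_ker]

theorem π_apply (g : GQ) (x : A.F) : ((A.π g x : A.F) : Qb) = g x :=
  AlgEquiv.restrictNormal_commutes g A.F x

theorem hker (s : GQ) (hs : A.π s = 1) : M.ρ s = 1 :=
  A.triv s ((A.π_eq_one_iff s).mp hs)

/-- `M` as a representation of the finite group `Gal(F/ℚ)` -/
def rep : Rep k A.G := descRep M A.π A.π_surjective A.hker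

/-- the identification of the carriers -/
def e : A.rep ≃ₗ[k] M := descEquiv M A.π A.π_surjective A.hker

theorem isDescent : IsDescent M A.π A.rep A.e := descRep_isDescent M A.π A.π_surjective A.hker

/-- the order on levels -/
instance : LE (ALevel M) := ⟨fun A A' => A.F ≤ A'.F⟩

theorem le_def {A A' : ALevel M} : A ≤ A' ↔ A.F ≤ A'.F := Iff.rfl

theorem ker_le_of_le {A A' : ALevel M} (h : A ≤ A') : A'.π.ker ≤ A.π.ker := by
  rw [π_ker, π_ker]
  exact IntermediateField.fixingSubgroup_antitone h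

/-- the restriction homomorphism `Gal(F'/ℚ) → Gal(F/ℚ)` for `F ≤ F'` -/
def resHom {A A' : ALevel M} (h : A ≤ A') : A'.G →* A.G :=
  A'.π.liftOfRightInverse (Function.surjInv A'.π_surjective)
    (Function.rightInverse_surjInv A'.π_surjective) ⟨A.π, ker_le_of_le h⟩

theorem resHom_π {A A' : ALevel M} (h : A ≤ A') (g : GQ) : resHom h (A'.π g) = A.π g :=
  MonoidHom.liftOfRightInverse_comp_apply _ _ _ _ g

theorem resHom_surjective {A A' : ALevel M} (h : A ≤ A') : Function.Surjective (resHom h) := by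
  intro q
  obtain ⟨g, rfl⟩ := A.π_surjective q
  exact ⟨A'.π g, resHom_π h g⟩

/-- `A.rep` descends to `A'.rep` along `resHom` -/
theorem isDescent_resHom {A A' : ALevel M} (h : A ≤ A') :
    IsDescent A'.rep (resHom h) A.rep (A.e.trans A'.e.symm) := by
  intro σ b
  obtain ⟨g, rfl⟩ := A'.π_surjective σ
  rw [resHom_π]
  apply A'.e.injective
  rw [← A'.isDescent g, LinearEquiv.trans_apply, LinearEquiv.trans_apply,
    LinearEquiv.apply_symm_apply, LinearEquiv.apply_symm_apply]
  exact A.isDescent g b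

/-- **Directedness**: any level and any finite extension are dominated by a level. -/
theorem exists_ge (A₀ : ALevel M) (F' : IntermediateField ℚ Qb) [FiniteDimensional ℚ F'] :
    ∃ A : ALevel M, A₀ ≤ A ∧ F' ≤ A.F := by
  haveI : FiniteDimensional ℚ ↥(A₀.F ⊔ F') := IntermediateField.finiteDimensional_sup A₀.F F'
  have hle : A₀.F ⊔ F' ≤ normalClosure ℚ ↥(A₀.F ⊔ F') Qb := IntermediateField.le_normalClosure _
  refine ⟨⟨normalClosure ℚ ↥(A₀.F ⊔ F') Qb, normalClosure.normal ℚ _ Qb,
    inferInstance, fun s hs => ?_⟩, ?_, ?_⟩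
  · exact A₀.triv s (IntermediateField.fixingSubgroup_antitone (le_sup_left.trans hle) hs)
  · exact le_sup_left.trans hle
  · exact le_sup_right.trans hle

/-- the transition map `H²(Gal(F/ℚ), M) → H²(Gal(F'/ℚ), M)` for `F ≤ F'` -/
def trans₂ {A A' : ALevel M} (h : A ≤ A') : H2 A.rep →ₗ[k] H2 A'.rep :=
  inflH2 (isDescent_resHom h) (resHom_surjective h)

theorem trans₂_H2π {A A' : ALevel M} (h : A ≤ A') (c : cocycles₂ A.rep) :
    trans₂ h ((H2π A.rep).hom c) =
      (H2π A'.rep).hom (inflCocycles₂ (isDescent_resHom h) (resHom_surjective h) c) :=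
  inflH2_H2π _ _ c

/-- the transition map on `H¹` -/
def trans₁ {A A' : ALevel M} (h : A ≤ A') : H1 A.rep →ₗ[k] H1 A'.rep :=
  inflH1 (isDescent_resHom h) (resHom_surjective h)

theorem trans₁_injective {A A' : ALevel M} (h : A ≤ A') : Function.Injective (trans₁ h) :=
  inflH1_injective _ _

/-! ### the image of a local group -/

section Img

variable {H : Type} [Group H] (f : H →* GQ)

/-- the image of the local group `H` in `Gal(F/ℚ)` -/
def img : Subgroup A.G := (A.π.comp f).range

theorem img_eq_map_range : A.img f = f.range.map A.π := MonoidHom.range_comp A.π f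

theorem mem_img_iff (σ : A.G) : σ ∈ A.img f ↔ ∃ h : H, A.π (f h) = σ := Iff.rfl

/-- the surjection of the local group onto its image -/
def toImg : H →* A.img f := (A.π.comp f).rangeRestrict

theorem toImg_surjective : Function.Surjective (A.toImg f) :=
  MonoidHom.rangeRestrict_surjective _

@[simp] theorem coe_toImg (h : H) : ((A.toImg f h : A.img f) : A.G) = A.π (f h) := rfl

theorem toImg_eq_one_iff (s : H) : A.toImg f s = 1 ↔ f s ∈ A.F.fixingSubgroup := by
  rw [← A.π_eq_one_iff, ← Subtype.coe_inj]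
  rfl

/-- `M` restricted to the image, as a descent of `M` restricted to `H` -/
def eImg : (Rep.res (A.img f).subtype A.rep) ≃ₗ[k] (Rep.res f M) := A.e

theorem isDescent_toImg :
    IsDescent (Rep.res f M) (A.toImg f) (Rep.res (A.img f).subtype A.rep) (A.eImg f) :=
  fun h b => A.isDescent (f h) b

/-- restriction `H²(Gal(F/ℚ), M) → H²(A.img f, M)` (Mathlib `groupCohomology.map`) -/
def resImg₂ : H2 A.rep →ₗ[k] H2 (Rep.res (A.img f).subtype A.rep) :=
  (groupCohomology.map (A.img f).subtype (𝟙 (Rep.res (A.img f).subtype A.rep)) 2).hom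

/-- restriction `H¹(Gal(F/ℚ), M) → H¹(A.img f, M)` (Mathlib `groupCohomology.map`) -/
def resImg₁ : H1 A.rep →ₗ[k] H1 (Rep.res (A.img f).subtype A.rep) :=
  (groupCohomology.map (A.img f).subtype (𝟙 (Rep.res (A.img f).subtype A.rep)) 1).hom

theorem resImg₂_H2π (c : cocycles₂ A.rep) :
    A.resImg₂ f ((H2π A.rep).hom c) =
      (H2π (Rep.res (A.img f).subtype A.rep)).hom
        ((mapCocycles₂ (A.img f).subtype (𝟙 (Rep.res (A.img f).subtype A.rep))).hom c) := by
  unfold resImg₂
  exact H2π_comp_map_apply (A.img f).subtype (𝟙 (Rep.res (A.img f).subtype A.rep)) c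

theorem resImg₁_H1π (c : cocycles₁ A.rep) :
    A.resImg₁ f ((H1π A.rep).hom c) =
      (H1π (Rep.res (A.img f).subtype A.rep)).hom
        ((mapCocycles₁ (A.img f).subtype (𝟙 (Rep.res (A.img f).subtype A.rep))).hom c) := by
  unfold resImg₁
  exact H1π_comp_map_apply (A.img f).subtype (𝟙 (Rep.res (A.img f).subtype A.rep)) c

/-- a class of level `A` dies on the image of `H` iff the cocycle restricted to the image is a
coboundary -/
theorem resImg₂_H2π_eq_zero_iff (c : cocycles₂ A.rep) :
    A.resImg₂ f ((H2π A.rep).hom c) = 0 ↔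
      ∃ b : A.img f → A.rep, ∀ d d' : A.img f,
        c ((d : A.G), (d' : A.G)) = A.rep.ρ (d : A.G) (b d') - b (d * d') + b d := by
  rw [resImg₂_H2π]
  erw [H2π_eq_zero_iff]
  constructor
  · rintro ⟨b, hb⟩
    refine ⟨b, fun d d' => ?_⟩
    have := congrFun hb (d, d')
    rw [d₁₂_hom_apply] at this
    exact this.symm
  · rintro ⟨b, hb⟩
    refine ⟨b, funext fun ⟨d, d'⟩ => ?_⟩
    rw [d₁₂_hom_apply]
    exact (hb d d').symm

theorem resImg₁_H1π_eq_zero_iff (c : cocycles₁ A.rep) :
    A.resImg₁ f ((H1π A.rep).hom c) = 0 ↔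
      ∃ m : A.rep, ∀ d : A.img f, c (d : A.G) = A.rep.ρ (d : A.G) m - m := by
  rw [resImg₁_H1π]
  erw [H1π_eq_zero_iff]
  constructor
  · rintro ⟨m, hm⟩
    refine ⟨m, fun d => ?_⟩
    have := congrFun hm d
    rw [d₀₁_hom_apply] at this
    exact this.symm
  · rintro ⟨m, hm⟩
    refine ⟨m, funext fun d => ?_⟩
    rw [d₀₁_hom_apply]
    exact (hm d).symm

/-- the same criterion, with a `1`-cochain of the local group `H` itself: the class dies on the
image of `H` iff the pulled-back cocycle is the coboundary of a cochain of `H` which is constant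
modulo `Gal(ℚ̄/A.F)` -/
theorem resImg₂_H2π_eq_zero_iff' (c : cocycles₂ A.rep) :
    A.resImg₂ f ((H2π A.rep).hom c) = 0 ↔
      ∃ b : H → M, (∀ g s : H, f s ∈ A.F.fixingSubgroup → b (g * s) = b g) ∧
        ∀ h h' : H, A.e (c (A.π (f h), A.π (f h'))) = M.ρ (f h) (b h') - b (h * h') + b h := by
  rw [resImg₂_H2π_eq_zero_iff]
  constructor
  · rintro ⟨b', hb'⟩
    refine ⟨fun h => A.e (b' (A.toImg f h)), fun g s hs => ?_, fun h h' => ?_⟩
    · have hs1 : A.toImg f s = 1 := (A.toImg_eq_one_iff f s).mpr hs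
      show A.e (b' (A.toImg f (g * s))) = A.e (b' (A.toImg f g))
      rw [map_mul, hs1, mul_one]
    · have := hb' (A.toImg f h) (A.toImg f h')
      simp only [coe_toImg] at this
      have h2 := congrArg A.e this
      rw [map_add, map_sub, ← A.isDescent (f h), ← map_mul] at h2
      exact h2
  · rintro ⟨b, hbc, hb⟩
    have hconst : ∀ g s : H, A.toImg f s = 1 → b (g * s) = b g := fun g s hs =>
      hbc g s ((A.toImg_eq_one_iff f s).mp hs)
    obtain ⟨b', hb'⟩ := exists_eq_pull₁_of_const (A.toImg f) (A.eImg f) (A.toImg_surjective f)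
      (b : H → Rep.res f M) hconst
    refine ⟨b', fun d d' => ?_⟩
    obtain ⟨h, rfl⟩ := A.toImg_surjective f d
    obtain ⟨h', rfl⟩ := A.toImg_surjective f d'
    apply A.e.injective
    have e1 : A.e (b' (A.toImg f h)) = b h := (congrFun hb' h).symm
    have e2 : A.e (b' (A.toImg f h')) = b h' := (congrFun hb' h').symm
    have e3 : A.e (b' (A.toImg f h * A.toImg f h')) = b (h * h') := by
      rw [← map_mul]; exact (congrFun hb' (h * h')).symm
    rw [map_add, map_sub, e1, e3, coe_toImg, ← A.isDescent (f h), e2, ← hb h h']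
    rfl

end Img

/-! ### transitivity, monotonicity -/

theorem le_trans' {A A' A'' : ALevel M} (h : A ≤ A') (h' : A' ≤ A'') : A ≤ A'' :=
  le_trans (α := IntermediateField ℚ Qb) h h'

theorem resHom_resHom {A A' A'' : ALevel M} (h : A ≤ A') (h' : A' ≤ A'') (σ : A''.G) :
    resHom h (resHom h' σ) = resHom (le_trans' h h') σ := by
  obtain ⟨g, rfl⟩ := A''.π_surjective σ
  rw [resHom_π, resHom_π, resHom_π]

theorem trans₂_trans₂ {A A' A'' : ALevel M} (h : A ≤ A') (h' : A' ≤ A'') (y : H2 A.rep) :
    trans₂ h' (trans₂ h y) = trans₂ (le_trans' h h') y := by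
  obtain ⟨c, rfl⟩ := H2π_surjective A.rep y
  rw [trans₂_H2π, trans₂_H2π, trans₂_H2π]
  congr 1
  apply Subtype.ext
  funext ⟨σ, σ'⟩
  show A''.e.symm (A'.e (A'.e.symm (A.e (c (resHom h (resHom h' σ), resHom h (resHom h' σ'))))))
    = A''.e.symm (A.e (c (resHom (le_trans' h h') σ, resHom (le_trans' h h') σ')))
  rw [LinearEquiv.apply_symm_apply, resHom_resHom, resHom_resHom]

theorem exists_ge₂ (A₀ A₁ : ALevel M) : ∃ A : ALevel M, A₀ ≤ A ∧ A₁ ≤ A :=
  exists_ge A₀ A₁.F

/-- dying on the image of `H` is stable under enlarging the level -/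
theorem resImg₂_trans₂_eq_zero {H : Type} [Group H] (f : H →* GQ) {A A' : ALevel M} (h : A ≤ A')
    (y : H2 A.rep) (hy : A.resImg₂ f y = 0) : A'.resImg₂ f (trans₂ h y) = 0 := by
  obtain ⟨c, rfl⟩ := H2π_surjective A.rep y
  rw [resImg₂_H2π_eq_zero_iff'] at hy
  obtain ⟨b, hbc, hb⟩ := hy
  rw [trans₂_H2π, resImg₂_H2π_eq_zero_iff']
  refine ⟨b, fun g s hs => hbc g s (IntermediateField.fixingSubgroup_antitone h hs),
    fun x x' => ?_⟩
  rw [← hb x x', coe_inflCocycles₂, pull₂_apply, LinearEquiv.trans_apply,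
    LinearEquiv.apply_symm_apply, resHom_π, resHom_π]

end ALevel

/-! ### the local conditions at finite level -/

namespace Level

variable {S : Finset Nat.Primes} {M} (L : Level S M)

/-- an `S`-level, regarded as a level of arbitrary ramification -/
def toALevel : ALevel M := ⟨L.F, L.normal, L.unr.1, L.triv⟩

@[simp] theorem toALevel_F : L.toALevel.F = L.F := rfl

variable {H : Type} [Group H] (f : H →* GQ)

/-- **(A6)** a class of `S`-level `L` dies in the Prelude local `H²` at `f : H →* G_ℚ` iff its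
inflation to some finite level `A ≥ L` (of arbitrary ramification) dies on the image of `H` in
`Gal(A.F/ℚ)`. -/
theorem locRes₂S_infl₂_eq_zero_iff' (y : H2 L.rep) :
    locRes₂S S M f (L.infl₂ y) = 0 ↔
      ∃ (A : ALevel M) (h : L.toALevel ≤ A), A.resImg₂ f (ALevel.trans₂ h y) = 0 := by
  obtain ⟨c, rfl⟩ := H2π_surjective L.rep y
  rw [locRes₂S_infl₂_eq_zero_iff]
  constructor
  · rintro ⟨b, ⟨F', hF', hbF'⟩, hb⟩
    haveI := hF'
    obtain ⟨A, hLA, hF'A⟩ := ALevel.exists_ge L.toALevel F'
    refine ⟨A, hLA, ?_⟩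
    have hconst : ∀ g s : H, A.toImg f s = 1 → b (g * s) = b g := fun g s hs =>
      hbF' g s (IntermediateField.fixingSubgroup_antitone hF'A ((A.toImg_eq_one_iff f s).mp hs))
    obtain ⟨b', hb'⟩ := exists_eq_pull₁_of_const (A.toImg f) (A.eImg f) (A.toImg_surjective f)
      (b : H → Rep.res f M) hconst
    have h1 : ALevel.trans₂ hLA ((H2π L.rep).hom c) = _ := ALevel.trans₂_H2π hLA c
    rw [h1, ALevel.resImg₂_H2π_eq_zero_iff]
    refine ⟨b', fun d d' => ?_⟩
    obtain ⟨h, rfl⟩ := A.toImg_surjective f d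
    obtain ⟨h', rfl⟩ := A.toImg_surjective f d'
    apply A.e.injective
    have e1 : A.e (b' (A.toImg f h)) = b h := (congrFun hb' h).symm
    have e2 : A.e (b' (A.toImg f h')) = b h' := (congrFun hb' h').symm
    have e3 : A.e (b' (A.toImg f h * A.toImg f h')) = b (h * h') := by
      rw [← map_mul]; exact (congrFun hb' (h * h')).symm
    rw [map_add, map_sub, e1, e3, ALevel.coe_toImg, ← A.isDescent (f h), e2, ← hb h h']
    rw [coe_inflCocycles₂, pull₂_apply, LinearEquiv.trans_apply, LinearEquiv.apply_symm_apply]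
    simp only [ALevel.coe_toImg]
    rw [ALevel.resHom_π, ALevel.resHom_π]
    rfl
  · rintro ⟨A, hLA, hA⟩
    have h1 : ALevel.trans₂ hLA ((H2π L.rep).hom c) = _ := ALevel.trans₂_H2π hLA c
    rw [h1, ALevel.resImg₂_H2π_eq_zero_iff] at hA
    obtain ⟨b', hb'⟩ := hA
    refine ⟨fun h => A.e (b' (A.toImg f h)), ⟨A.F, A.fin, fun g s hs => ?_⟩, fun h h' => ?_⟩
    · have hs1 : A.toImg f s = 1 := (A.toImg_eq_one_iff f s).mpr hs
      show A.e (b' (A.toImg f (g * s))) = A.e (b' (A.toImg f g))
      rw [map_mul, hs1, mul_one]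
    · have := hb' (A.toImg f h) (A.toImg f h')
      rw [coe_inflCocycles₂, pull₂_apply, LinearEquiv.trans_apply] at this
      simp only [ALevel.coe_toImg] at this
      rw [ALevel.resHom_π, ALevel.resHom_π] at this
      have h2 := congrArg A.e this
      rw [LinearEquiv.apply_symm_apply, map_add, map_sub, ← A.isDescent (f h), ← map_mul] at h2
      exact h2

/-- **(A7)** a class of `S`-level `L` dies in the local `H¹` at `f : H →* G_ℚ` iff it dies on the
image of `H` in `Gal(L.F/ℚ)`. -/
theorem map_infl₁_eq_zero_iff' (y : H1 L.rep) :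
    (groupCohomology.map f (𝟙 (Rep.res f M)) 1).hom (L.infl₁ y) = 0 ↔
      L.toALevel.resImg₁ f y = 0 := by
  obtain ⟨c, rfl⟩ := H1π_surjective L.rep y
  rw [map_infl₁_eq_zero_iff]
  erw [ALevel.resImg₁_H1π_eq_zero_iff]
  constructor
  · rintro ⟨m, hm⟩
    refine ⟨L.e.symm m, fun d => ?_⟩
    obtain ⟨h, rfl⟩ := L.toALevel.toImg_surjective f d
    apply L.e.injective
    have h1 := L.isDescent (f h) (L.e.symm m)
    rw [LinearEquiv.apply_symm_apply] at h1
    have h2 : L.e (L.rep.ρ (L.π (f h)) (L.e.symm m) - L.e.symm m) = M.ρ (f h) m - m := by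
      rw [map_sub, LinearEquiv.apply_symm_apply, ← h1]
    exact (hm h).trans h2.symm
  · rintro ⟨m, hm⟩
    refine ⟨L.e m, fun h => ?_⟩
    have := hm (L.toALevel.toImg f h)
    rw [L.isDescent (f h) m, ← map_sub]
    exact congrArg L.e this

/-- compatibility of the two transition maps -/
theorem toALevel_trans₂ {L L' : Level S M} (h : L ≤ L') (y : H2 L.rep) :
    ALevel.trans₂ (A := L.toALevel) (A' := L'.toALevel) h y = trans₂ h y := rfl

/-- **(A6'')** finitely many local conditions can be tested at ONE common finite level. -/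
theorem locRes₂S_infl₂_eq_zero_forall_iff {ι : Type} [Finite ι] {Hs : ι → Type}
    [∀ i, Group (Hs i)] (fs : ∀ i, Hs i →* GQ) (y : H2 L.rep) :
    (∀ i, locRes₂S S M (fs i) (L.infl₂ y) = 0) ↔
      ∃ (A : ALevel M) (h : L.toALevel ≤ A), ∀ i, A.resImg₂ (fs i) (ALevel.trans₂ h y) = 0 := by
  constructor
  · intro hall
    have hall' := fun i => (L.locRes₂S_infl₂_eq_zero_iff' (fs i) y).mp (hall i)
    choose As hLs hAs using hall'
    haveI : FiniteDimensional ℚ ↥(⨆ i, (As i).F) :=
      IntermediateField.finiteDimensional_iSup_of_finite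
    obtain ⟨A, hLA, hsup⟩ := ALevel.exists_ge L.toALevel (⨆ i, (As i).F)
    refine ⟨A, hLA, fun i => ?_⟩
    have hi : As i ≤ A := (le_iSup (fun i => (As i).F) i).trans hsup
    have h1 : ALevel.trans₂ hLA y = ALevel.trans₂ hi (ALevel.trans₂ (hLs i) y) :=
      (ALevel.trans₂_trans₂ (hLs i) hi y).symm
    rw [h1]
    exact ALevel.resImg₂_trans₂_eq_zero (fs i) hi _ (hAs i)
  · rintro ⟨A, hLA, hA⟩ i
    exact (L.locRes₂S_infl₂_eq_zero_iff' (fs i) y).mpr ⟨A, hLA, hA i⟩

/-- **`sha₂` at finite level**: the inflation of `y ∈ H²(Gal(L.F/ℚ), M)` lies in the Prelude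
`sha₂ S M` iff at some finite level `A ≥ L` (arbitrary ramification) the class dies on the image
of every local group `extArithLoc S v`. -/
theorem infl₂_mem_sha₂_iff (y : H2 L.rep) :
    L.infl₂ y ∈ sha₂ S M ↔
      ∃ (A : ALevel M) (h : L.toALevel ≤ A), ∀ v : ExtCitation.extArithIndex S,
        A.resImg₂ (ExtCitation.extArithLoc S v) (ALevel.trans₂ h y) = 0 := by
  rw [← L.locRes₂S_infl₂_eq_zero_forall_iff (fun v => ExtCitation.extArithLoc S v) y]
  unfold sha₂
  rw [LinearMap.mem_ker]
  constructor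
  · intro h v
    have := congrFun h v
    rwa [locTotal₂S_apply] at this
  · intro h
    funext v
    rw [locTotal₂S_apply]
    exact h v

end Level

/-- **`sha₁` at finite level**: the inflation of `y ∈ H¹(Gal(L.F/ℚ), A)` lies in the Prelude
`sha₁ S A` iff `y` dies on the image in `Gal(L.F/ℚ)` of every local group `extArithLoc S v`. -/
theorem Level.infl₁_mem_sha₁_iff {S : Finset Nat.Primes} {K : Type} [Field K] {A : Rep K GQ}
    (L : Level S A) (y : H1 L.rep) :
    L.infl₁ y ∈ sha₁ S A ↔
      ∀ v : ExtCitation.extArithIndex S,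
        L.toALevel.resImg₁ (ExtCitation.extArithLoc S v) y = 0 := by
  unfold sha₁
  rw [Submodule.mem_inf, LinearMap.mem_ker]
  constructor
  · rintro ⟨-, h⟩ v
    have := congrFun h v
    rw [locTotal_apply] at this
    exact (L.map_infl₁_eq_zero_iff' (ExtCitation.extArithLoc S v) y).mp this
  · intro h
    refine ⟨L.infl₁_mem_continuousH1S y, funext fun v => ?_⟩
    rw [locTotal_apply]
    exact (L.map_infl₁_eq_zero_iff' (ExtCitation.extArithLoc S v) y).mpr (h v)

end Fermat.Agent.S55.ProfinGlobal22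

end
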